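import Mathlib
import Fermat.Prelude.Def_FLTPrelim_Modularity
import Fermat.Prelude.Def_FLTPrelim_ModularRep
import Fermat.Prelude.Def_FLTPrelim_Ramification
import Fermat.Prelude.Def_CuspForm_IntegralLattice
import Fermat.Prelude.Def_FormalHecke_Eigensystem
import Fermat.Prelude.Def_ModularForm_EisensteinChiNegThree
import Fermat.Prelude.Def_LanglandsTunnell_WeightOneRealizationCarriers
import Fermat.Agent.Common.FrobExists

/-!
# Row 42 (Langlands–Tunnell: S46 / S47 / S50) — Lean interface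

One `Prop` per piece (piece table and sizes: `NOTES/LT-plan.md`), and the kernel-checked wiring

* `coreMod3_of_artin : StmtLift → StmtCoreArtin → StmtW1W2 → StmtCoreMod3`
* `s46_of_parts : StmtRep3 → StmtCoreMod3 → StmtIntBasis → (the frozen statement S46)`

so that row 42 is reduced to

* `StmtRep3`      (G1)  the mod 3 representation of a semistable curve, as a surjective
                         homomorphism to `GL₂(𝔽₃)` with cyclotomic determinant, unipotent
                         inertia away from 3 and Frobenius traces `a_ℓ`;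
* `StmtLift`      (G0)  the section `GL₂(𝔽₃) → GL₂(ℤ[√−2])` of the reduction (finite group theory);
* `StmtW1W2`      (G2)  multiplication by the weight one Eisenstein series `E_{1,χ₋₃} ≡ 1 mod 3`
                         (this is the prelude's `CuspForm.WeightTwoModThreeCongruenceLift`);
* `StmtIntBasis`  (G5)  `HasIntegralBasis N` for all `N` (from S23);
* `StmtCoreArtin` (CORE) the strong Artin conjecture for octahedral representations
                         `Ψ ∘ ρ̄` of semistable type, with cube-free level away from 3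
                         (Langlands–Tunnell proper).
-/

set_option autoImplicit false

open WeierstrassCurve CuspForm EisensteinWeightOne FormalHecke FLT.ExplicitLift
open scoped MatrixGroups

namespace Fermat.Agent.LT

local notation "Γℚ" => (AlgebraicClosure ℚ ≃ₐ[ℚ] AlgebraicClosure ℚ)

/-- Inertia at every prime `q ≠ 3` acts through a group of order dividing `3`
("semistable type": on the `3`-torsion of a semistable curve inertia at `q ≠ 3` is unipotent). -/
def SemistableInertia (ρ : Γℚ →* GL (Fin 2) (ZMod 3)) : Prop :=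
  ∀ q : ℕ, q.Prime → q ≠ 3 →
    ∀ A : ValuationSubring (AlgebraicClosure ℚ), A.LiesOverPrime q →
      ∀ σ ∈ A.inertiaSubgroupIn ℚ, ρ σ ^ 3 = 1

/-- **(G1)** The mod 3 representation of a semistable curve with irreducible `3`-torsion,
in matrix form. -/
def StmtRep3 : Prop :=
  ∀ W : WeierstrassCurve ℤ, W.Δ ≠ 0 → W.IsSemistableModel → W.ModRepIsIrreducible 3 →
    ∃ ρ : Γℚ →* GL (Fin 2) (ZMod 3), Continuous ρ ∧ Function.Surjective ρ ∧
      (∀ σ : Γℚ, Matrix.GeneralLinearGroup.det (ρ σ) = modThreeCyclotomicChar σ) ∧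
      SemistableInertia ρ ∧
      ∀ ℓ : ℕ, ℓ.Prime → W.IsGoodPrimeFor ℓ → ℓ ≠ 3 →
        ∀ A : ValuationSubring (AlgebraicClosure ℚ), A.LiesOverPrime ℓ →
          ∀ σ : Γℚ, A.IsFrobeniusAt σ ℓ →
            ((ρ σ : GL (Fin 2) (ZMod 3)) : Matrix (Fin 2) (Fin 2) (ZMod 3)).trace =
              ((W.apOfModel ℓ : ℤ) : ZMod 3)

/-- **(G0)** The reduction `GL₂(ℤ[√−2]) → GL₂(𝔽₃)` has a section which is a homomorphism. -/
def StmtLift : Prop :=
  ∃ Ψ : GL (Fin 2) (ZMod 3) →* GL (Fin 2) (ℤ√(-2)),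
    ∀ g, Matrix.GeneralLinearGroup.map red (Ψ g) = g

/-- **(G5)** Every level has a basis of forms with integral `q`-expansion. -/
def StmtIntBasis : Prop :=
  ∀ (N : ℕ) [NeZero N], CuspForm.HasIntegralBasis N

/-- **(G2)** Weight one to weight two modulo 3 (the prelude's statement). -/
def StmtW1W2 : Prop :=
  CuspForm.WeightTwoModThreeCongruenceLift

/-- **(CORE)** Langlands–Tunnell for octahedral representations of semistable type: the
strong Artin conjecture for `Ψ ∘ ρ`, with a level that is cube-free away from `3`.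
Without the two clauses `SemistableInertia ρ` and "cube-free" this is the frozen S47. -/
def StmtCoreArtin : Prop :=
  ∀ (ρ : Γℚ →* GL (Fin 2) (ZMod 3)), Continuous ρ → Function.Surjective ρ →
    (∀ σ : Γℚ, Matrix.GeneralLinearGroup.det (ρ σ) = modThreeCyclotomicChar σ) →
    SemistableInertia ρ →
    ∀ (Ψ : GL (Fin 2) (ZMod 3) →* GL (Fin 2) (ℤ√(-2))),
      (∀ g, Matrix.GeneralLinearGroup.map red (Ψ g) = g) →
      ∃ (N : ℕ) (_ : NeZero N) (b : ℕ → ℤ√(-2)),
        FormalHecke.IsEigensystem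
          (fun ℓ => if ℓ ∣ N then 0 else ((chiNegThree ℓ : ℤ) : ℤ√(-2))) b ∧
        CuspForm.IsWeightOneChiNegThreeRealized N b ∧
        (∀ q : ℕ, q.Prime → q ≠ 3 → ¬ q ^ 3 ∣ N) ∧
        ∀ p : ℕ, p.Prime → ¬ p ∣ 3 * N →
          ∀ A : ValuationSubring (AlgebraicClosure ℚ), A.LiesOverPrime p →
            ∀ σ : Γℚ, A.IsFrobeniusAt σ p →
              b p = ((Ψ (ρ σ) : GL (Fin 2) (ℤ√(-2))) : Matrix (Fin 2) (Fin 2) (ℤ√(-2))).trace

/-- **(CORE mod 3)** The mod 3 form of Langlands–Tunnell: a surjective `ρ` of semistable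
type with cyclotomic determinant is the representation of a weight two form modulo 3 of a level
that is cube-free away from `3`. -/
def StmtCoreMod3 : Prop :=
  ∀ (ρ : Γℚ →* GL (Fin 2) (ZMod 3)), Continuous ρ → Function.Surjective ρ →
    (∀ σ : Γℚ, Matrix.GeneralLinearGroup.det (ρ σ) = modThreeCyclotomicChar σ) →
    SemistableInertia ρ →
    ∃ (N : ℕ) (_ : NeZero N) (a : ℕ → ℤ),
      FormalHecke.IsEigensystem
        (fun ℓ => if ℓ ∣ N then 0 else ((chiNegThree ℓ : ℤ) : ℤ)) a ∧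
      CuspForm.IsLatticeRealized N a ∧
      (∀ q : ℕ, q.Prime → q ≠ 3 → ¬ q ^ 3 ∣ N) ∧
      ∀ p : ℕ, p.Prime → ¬ p ∣ 3 * N →
        ∀ A : ValuationSubring (AlgebraicClosure ℚ), A.LiesOverPrime p →
          ∀ σ : Γℚ, A.IsFrobeniusAt σ p →
            ((a p : ℤ) : ZMod 3) =
              ((ρ σ : GL (Fin 2) (ZMod 3)) : Matrix (Fin 2) (Fin 2) (ZMod 3)).trace

/-- the trace of the reduction of a matrix -/
theorem trace_map_red (g : GL (Fin 2) (ℤ√(-2))) :
    ((Matrix.GeneralLinearGroup.map red g : GL (Fin 2) (ZMod 3)) :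
        Matrix (Fin 2) (Fin 2) (ZMod 3)).trace =
      red ((g : Matrix (Fin 2) (Fin 2) (ℤ√(-2))).trace) := by
  simp [Matrix.trace, Matrix.GeneralLinearGroup.map]

/-- **Wiring 1**: the mod 3 core from the characteristic zero core. -/
theorem coreMod3_of_artin (hL : StmtLift) (hA : StmtCoreArtin) (hW : StmtW1W2)
    (hI : StmtIntBasis) : StmtCoreMod3 := by
  intro ρ hρ hsurj hdet hss
  obtain ⟨Ψ, hΨ⟩ := hL
  obtain ⟨N, hN, b, hb, hreal, hcube, hfrob⟩ := hA ρ hρ hsurj hdet hss Ψ hΨ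
  obtain ⟨⟨a, ha, hlat, hab⟩, -⟩ := hW N hN b hb (hI N) hreal
  refine ⟨N, hN, a, ha, hlat, hcube, ?_⟩
  intro p hp hpN A hA' σ hσ
  rw [hab p, hfrob p hp hpN A hA' σ hσ, ← trace_map_red, hΨ]

/-- **Wiring 2**: the frozen statement S46 from (G1), (CORE mod 3) and (G5). -/
theorem s46_of_parts (hR : StmtRep3) (hC : StmtCoreMod3) (hI : StmtIntBasis) :
    ∀ W : WeierstrassCurve ℤ, W.Δ ≠ 0 → W.IsSemistableModel → W.ModRepIsIrreducible 3 →
      ∃ (N : ℕ) (_ : NeZero N) (a : ℕ → ℤ),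
        CuspForm.HasIntegralBasis N ∧
        FormalHecke.IsEigensystem
          (fun ℓ => if ℓ ∣ N then 0 else ((chiNegThree ℓ : ℤ) : ℤ)) a ∧
        CuspForm.IsLatticeRealized N a ∧
        (∀ q : ℕ, q.Prime → q ≠ 3 → ¬ q ^ 3 ∣ N) ∧
        ∀ ℓ : ℕ, ℓ.Prime → W.IsGoodPrimeFor ℓ → ¬ ℓ ∣ N → ℓ ≠ 3 →
          (3 : ℤ) ∣ (a ℓ - W.apOfModel ℓ) := by
  intro W hΔ hss h3
  obtain ⟨ρ, hρ, hsurj, hdet, hin, htr⟩ := hR W hΔ hss h3
  obtain ⟨N, hN, a, ha, hlat, hcube, hfrob⟩ := hC ρ hρ hsurj hdet hin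
  refine ⟨N, hN, a, hI N, ha, hlat, hcube, ?_⟩
  intro ℓ hℓ hgood hℓN hℓ3
  obtain ⟨A, σ, hA, hσ⟩ := Fermat.Agent.Common.exists_isFrobeniusAt ℓ hℓ
  have h3N : ¬ ℓ ∣ 3 * N := by
    intro h
    rcases (Nat.Prime.dvd_mul hℓ).mp h with h | h
    · exact hℓ3 ((Nat.prime_dvd_prime_iff_eq hℓ Nat.prime_three).mp h)
    · exact hℓN h
  have h1 := hfrob ℓ hℓ h3N A hA σ hσ
  rw [htr ℓ hℓ hgood hℓ3 A hA σ hσ] at h1
  have h2 : (((a ℓ - W.apOfModel ℓ : ℤ)) : ZMod 3) = 0 := by
    rw [Int.cast_sub, h1, sub_self]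
  exact (ZMod.intCast_zmod_eq_zero_iff_dvd _ 3).mp h2

end Fermat.Agent.LT
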