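import Mathlib
import Fermat.Prelude.Def_AutomorphicForm_HeckeEigensystem
import Fermat.Prelude.Def_EllipticCurve_FrobeniusTrace
import Fermat.Prelude.Def_FLTPrelim_Ramification
import Fermat.Prelude.Def_GaloisRep_Residual
import Fermat.Prelude.Def_Deformations_MatrixRepresentation
import Fermat.Prelude.Def_LanglandsTunnell_RealizationDictionary
import Fermat.Agent.LT.Plan

/-!
# Row 42 CORE (Langlands–Tunnell proper) — interface, architecture v1

Notes: `NOTES/LT-core.md`.  Tower `ℚ ⊂ K = ℚ(√−3) ⊂ L`, `Gal(L/ℚ) = S₃`, `ρ = Ψ ∘ ρ̄` octahedral,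
`ρ|G_L` has image `Q₈` (dihedral).  The automorphic input is an ABSTRACT box: a
`CuspidalityNotion ℂ` with the seven properties (A1)–(A7) below.  No `GL₃`, no symmetric square.

* Galois side definitions: `LiesOverPlace`, `IsFrobAt`, `IsAttached`, `IsAttachedQ`,
  `HasLineOver`, `IsDihedralOver`.
* Automorphic box: `StmtDihedral` (A1), `StmtDescent` + `StmtDescentCubic` (A2), `StmtRigid` (A3),
  `StmtConj` + `StmtTwist` (A4), `StmtCentral` (A5), `StmtRankin` (A6), `StmtRealize` (A7),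
  bundled as `AutomorphicBox notion`; `StmtAutomorphic := ∃ notion, AutomorphicBox notion`.
* Glue: `StmtDS` (= the frozen statement S48), `StmtChebD` (Chebotarev, density form),
  `StmtAttachedForm` (a weight one eigenform attached to `Ψ ∘ ρ̄`),
  `StmtGaloisGlue : Prop := StmtAutomorphic → StmtDS → StmtChebD → StmtAttachedForm`.
* Level: `StmtDeplete` (elementary; enough for the frozen S47) and `StmtLevel` (conductor;
  needed for the cube-free clause of S46 / S50).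
* Wiring (kernel checked here): `coreArtin_of_level`, `attachedForm_of_glue`.
  The wiring `StmtAttachedForm → StmtDeplete → S47` is in `LT/S47Wiring.lean`.
-/

set_option autoImplicit false

open IsDedekindDomain NumberField AutomorphicForm CongruenceSubgroup
open EisensteinWeightOne FLT.ExplicitLift WeierstrassCurve
open scoped MatrixGroups

namespace Fermat.Agent.LT

local notation "Qb" => AlgebraicClosure ℚ
local notation "Γℚ" => (AlgebraicClosure ℚ ≃ₐ[ℚ] AlgebraicClosure ℚ)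

/-! ## 1. Galois side definitions -/

/-- The valuation subring `A` of `ℚ̄` lies over the finite place `v` of the number field
`F ⊆ ℚ̄`. -/
def LiesOverPlace (F : IntermediateField ℚ Qb) [NumberField F] (A : ValuationSubring Qb)
    (v : HeightOneSpectrum (𝓞 F)) : Prop :=
  ∀ x : 𝓞 F, x ∈ v.asIdeal ↔ (((x : F) : Qb)) ∈ A.nonunits

/-- `σ ∈ G_F` is a Frobenius element at the finite place `v` of `F`. -/
def IsFrobAt (F : IntermediateField ℚ Qb) [NumberField F] (v : HeightOneSpectrum (𝓞 F))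
    (σ : Γℚ) : Prop :=
  σ ∈ F.fixingSubgroup ∧
    ∃ A : ValuationSubring Qb, LiesOverPlace F A v ∧
      A.IsFrobeniusAt σ (Nat.card (𝓞 F ⧸ v.asIdeal))

/-- The eigensystem `π` over `F` is attached to `ρ|G_F`: at almost all places, trace and
determinant of Frobenius. -/
def IsAttached (F : IntermediateField ℚ Qb) [NumberField F] (ρ : Γℚ →* GL (Fin 2) ℂ)
    (π : HeckeEigensystem F ℂ) : Prop :=
  ∃ S : Finset (HeightOneSpectrum (𝓞 F)), ∀ v ∉ S, ∀ σ : Γℚ, IsFrobAt F v σ →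
    π.a v = ((ρ σ : GL (Fin 2) ℂ) : Matrix (Fin 2) (Fin 2) ℂ).trace ∧
    π.b v = ((ρ σ : GL (Fin 2) ℂ) : Matrix (Fin 2) (Fin 2) ℂ).det

/-- The same over `ℚ` itself (places = prime numbers, via `ratPrime`). -/
def IsAttachedQ (ρ : Γℚ →* GL (Fin 2) ℂ) (π : HeckeEigensystem ℚ ℂ) : Prop :=
  ∃ S : Finset ℕ, ∀ p : Nat.Primes, (p : ℕ) ∉ S →
    ∀ A : ValuationSubring Qb, A.LiesOverPrime (p : ℕ) → ∀ σ : Γℚ, A.IsFrobeniusAt σ (p : ℕ) →
      π.a (ratPrime p) = ((ρ σ : GL (Fin 2) ℂ) : Matrix (Fin 2) (Fin 2) ℂ).trace ∧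
      π.b (ratPrime p) = ((ρ σ : GL (Fin 2) ℂ) : Matrix (Fin 2) (Fin 2) ℂ).det

/-- `ρ|G_F` stabilises a line. -/
def HasLineOver (F : IntermediateField ℚ Qb) (ρ : Γℚ →* GL (Fin 2) ℂ) : Prop :=
  ∃ w : Fin 2 → ℂ, w ≠ 0 ∧ ∀ σ ∈ F.fixingSubgroup, ∃ c : ℂ,
    ((ρ σ : GL (Fin 2) ℂ) : Matrix (Fin 2) (Fin 2) ℂ).mulVec w = c • w

/-- `ρ` has finite image, `ρ|G_F` is irreducible, and becomes reducible over a quadratic
extension `M` of `F` (so `ρ|G_F` is induced from a character of `G_M`). -/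
def IsDihedralOver (F : IntermediateField ℚ Qb) (ρ : Γℚ →* GL (Fin 2) ℂ) : Prop :=
  GaloisFactorsThroughFiniteLevel ρ ∧ ¬ HasLineOver F ρ ∧
    ∃ M : IntermediateField ℚ Qb, F ≤ M ∧ FiniteDimensional ℚ M ∧
      Module.finrank ℚ M = 2 * Module.finrank ℚ F ∧ HasLineOver M ρ

/-- the quadratic character `χ₋₃` at a place of `ℚ` -/
noncomputable def chiNegThreeAt (v : HeightOneSpectrum (𝓞 ℚ)) : ℂ :=
  ((chiNegThree ((Rat.HeightOneSpectrum.primesEquiv (R := 𝓞 ℚ) v : Nat.Primes) : ℕ) : ℤ) : ℂ)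

/-! ## 2. The automorphic box -/

section Box

variable (notion : CuspidalityNotion ℂ)

/-- **(A1) DIHEDRAL.** Dihedral representations are cuspidal automorphic. -/
def StmtDihedral : Prop :=
  ∀ (F : IntermediateField ℚ Qb) [NumberField F] (ρ : Γℚ →* GL (Fin 2) ℂ),
    IsDihedralOver F ρ →
      ∃ Φ : HeckeEigensystem F ℂ, notion.IsCusp F Φ ∧ IsAttached F ρ Φ

/-- **(A2) DESCENT** (Langlands, cyclic base change of prime degree; used in degrees 2 and 3). -/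
def StmtDescent : Prop :=
  ∀ (E L : Type) [Field E] [NumberField E] [Field L] [NumberField L] [Algebra E L]
    [IsGalois E L] [IsCyclic (L ≃ₐ[E] L)], (Module.finrank E L).Prime →
    ∀ Φ : HeckeEigensystem L ℂ, notion.IsCusp L Φ → Φ.IsConstantOnFibers E →
      ∃ π : HeckeEigensystem E ℂ, notion.IsCusp E π ∧ IsBaseChangeOf π Φ

/-- **(A2′) DESCENT, cubic, with central character**: if `Φ` has trivial central character
then one of the three descents has trivial central character. -/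
def StmtDescentCubic : Prop :=
  ∀ (E L : Type) [Field E] [NumberField E] [Field L] [NumberField L] [Algebra E L]
    [IsGalois E L] [IsCyclic (L ≃ₐ[E] L)], Module.finrank E L = 3 →
    ∀ Φ : HeckeEigensystem L ℂ, notion.IsCusp L Φ → Φ.IsConstantOnFibers E →
      (∃ S : Finset (HeightOneSpectrum (𝓞 L)), ∀ w ∉ S, Φ.b w = 1) →
      ∃ π : HeckeEigensystem E ℂ, notion.IsCusp E π ∧ IsBaseChangeOf π Φ ∧
        ∃ S : Finset (HeightOneSpectrum (𝓞 E)), ∀ v ∉ S, π.b v = 1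

/-- **(A3) RIGIDITY** (cubic): two descents with the same central character agree. -/
def StmtRigid : Prop :=
  ∀ (E L : Type) [Field E] [NumberField E] [Field L] [NumberField L] [Algebra E L]
    [IsGalois E L] [IsCyclic (L ≃ₐ[E] L)], Module.finrank E L = 3 →
    ∀ (Φ : HeckeEigensystem L ℂ) (π π' : HeckeEigensystem E ℂ),
      notion.IsCusp L Φ → notion.IsCusp E π → notion.IsCusp E π' →
      IsBaseChangeOf π Φ → IsBaseChangeOf π' Φ →
      (∃ S : Finset (HeightOneSpectrum (𝓞 E)), ∀ v ∉ S, π.b v = π'.b v) →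
      HeckeEigensystem.AgreesAwayFromFinite π π'

/-- **(A4) CONJ**: transport of structure by a field automorphism. -/
def StmtConj : Prop :=
  ∀ (F : Type) [Field F] [NumberField F] (τ : F ≃+* F) (π : HeckeEigensystem F ℂ),
    notion.IsCusp F π →
      ∃ π' : HeckeEigensystem F ℂ, notion.IsCusp F π' ∧
        ∀ v v' : HeightOneSpectrum (𝓞 F),
          (∀ x : 𝓞 F, x ∈ v'.asIdeal ↔ RingOfIntegers.mapRingEquiv τ x ∈ v.asIdeal) →
            π'.a v' = π.a v ∧ π'.b v' = π.b v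

/-- **(A4′) TWIST** by `χ₋₃` over `ℚ`. -/
def StmtTwist : Prop :=
  ∀ π : HeckeEigensystem ℚ ℂ, notion.IsCusp ℚ π → notion.IsCusp ℚ (π.twist chiNegThreeAt)

/-- **(A5) CENTRAL**: over `ℚ` the `b_p` are the values of a Dirichlet character. -/
def StmtCentral : Prop :=
  ∀ π : HeckeEigensystem ℚ ℂ, notion.IsCusp ℚ π →
    ∃ (M : ℕ) (_ : NeZero M) (ω : DirichletCharacter ℂ M),
      ∀ p : Nat.Primes, ¬ (p : ℕ) ∣ M → π.b (ratPrime p) = ω ((p : ℕ) : ZMod M)

/-- **(A6) RANKIN**: `∑_p |a_p|² p^{-s} ≤ log (1/(s-1)) + C` for `1 < s ≤ 2`. -/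
def StmtRankin : Prop :=
  ∀ π : HeckeEigensystem ℚ ℂ, notion.IsCusp ℚ π →
    ∃ (S : Finset ℕ) (C : ℝ), ∀ s : ℝ, 1 < s → s ≤ 2 → ∀ T : Finset Nat.Primes,
      (∀ p ∈ T, (p : ℕ) ∉ S) →
        ∑ p ∈ T, ‖π.a (ratPrime p)‖ ^ 2 * ((p : ℕ) : ℝ) ^ (-s) ≤
          Real.log (1 / (s - 1)) + C

/-- **(A7) REALIZE**: a cuspidal eigensystem over `ℚ` with odd central character `χ₋₃`
is the eigensystem of a holomorphic cusp form of weight one. -/
def StmtRealize : Prop :=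
  ∀ π : HeckeEigensystem ℚ ℂ, notion.IsCusp ℚ π →
    (∃ S : Finset ℕ, ∀ p : Nat.Primes, (p : ℕ) ∉ S →
      π.b (ratPrime p) = ((chiNegThree (p : ℕ) : ℤ) : ℂ)) →
    ∃ (N : ℕ) (_ : NeZero N) (ε : DirichletCharacter ℂ N) (f : CuspForm (Gamma1 N) 1),
      ModularFormClass.qCoeff f 1 = 1 ∧
      (∀ p : ℕ, p.Prime → ¬ p ∣ N → ∀ n : ℕ,
        ModularFormClass.qCoeff f (p * n) +
            ε (p : ZMod N) * (if p ∣ n then ModularFormClass.qCoeff f (n / p) else 0) =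
          ModularFormClass.qCoeff f p * ModularFormClass.qCoeff f n) ∧
      ∀ p : Nat.Primes, ¬ (p : ℕ) ∣ N →
        ModularFormClass.qCoeff f (p : ℕ) = π.a (ratPrime p) ∧
        ε ((p : ℕ) : ZMod N) = π.b (ratPrime p)

/-- The automorphic box: one notion of cuspidality with (A1)–(A7). -/
structure AutomorphicBox : Prop where
  dihedral : StmtDihedral notion
  descent : StmtDescent notion
  descentCubic : StmtDescentCubic notion
  rigid : StmtRigid notion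
  conj : StmtConj notion
  twist : StmtTwist notion
  central : StmtCentral notion
  rankin : StmtRankin notion
  realize : StmtRealize notion

end Box

/-- **(AUT)** There is a notion of cuspidality satisfying (A1)–(A7). -/
def StmtAutomorphic : Prop :=
  ∃ notion : CuspidalityNotion ℂ, AutomorphicBox notion

/-! ## 3. Glue -/

/-- **(DS)** Deligne–Serre: the frozen statement S48, as a `Prop`. -/
def StmtDS : Prop :=
  ∀ (N : ℕ) [NeZero N] (ε : DirichletCharacter ℂ N) (f : CuspForm (Gamma1 N) 1),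
    ModularFormClass.qCoeff f 1 = 1 →
    (∀ p : ℕ, p.Prime → ¬ p ∣ N → ∀ n : ℕ,
        ModularFormClass.qCoeff f (p * n) +
            ε (p : ZMod N) * (if p ∣ n then ModularFormClass.qCoeff f (n / p) else 0) =
          ModularFormClass.qCoeff f p * ModularFormClass.qCoeff f n) →
    ∃ ρ : Γℚ →* GL (Fin 2) ℂ, GaloisFactorsThroughFiniteLevel ρ ∧
      (Deformation.matrixRepresentation ρ).IsIrreducible ∧
      ∀ p : ℕ, p.Prime → ¬ p ∣ N →
        ∀ A : ValuationSubring (AlgebraicClosure ℚ), A.LiesOverPrime p →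
          (∀ σ ∈ A.inertiaSubgroupIn ℚ, ρ σ = 1) ∧
          ∀ σ : Γℚ, A.IsFrobeniusAt σ p →
            ((ρ σ : GL (Fin 2) ℂ) : Matrix (Fin 2) (Fin 2) ℂ).trace =
              ModularFormClass.qCoeff f p ∧
            ((ρ σ : GL (Fin 2) ℂ) : Matrix (Fin 2) (Fin 2) ℂ).det = ε (p : ZMod N)

/-- **(CD)** Chebotarev's density theorem, lower Dirichlet density, conjugation stable sets
(the same statement as `Fermat.Agent.S48.StmtChebDensity`). -/
def StmtChebD : Prop :=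
  ∀ (F : IntermediateField ℚ (AlgebraicClosure ℚ)) [FiniteDimensional ℚ F] [IsGalois ℚ F]
    (S : Finset ℕ) (C : Set (F ≃ₐ[ℚ] F)), (∀ g σ : F ≃ₐ[ℚ] F, σ ∈ C → g * σ * g⁻¹ ∈ C) →
    ∀ δ : ℝ, 0 < δ → ∃ s₀ : ℝ, 1 < s₀ ∧ ∀ s : ℝ, 1 < s → s < s₀ →
      ∃ P : Finset ℕ,
        (∀ p ∈ P, p.Prime ∧ p ∉ S ∧
          ∀ A : ValuationSubring (AlgebraicClosure ℚ), A.LiesOverPrime p →
            ∀ τ : Γℚ, A.IsFrobeniusAt τ p → AlgEquiv.restrictNormal τ F ∈ C) ∧
        ((C.ncard : ℝ) / (Nat.card (F ≃ₐ[ℚ] F) : ℝ) - δ) * Real.log (1 / (s - 1)) ≤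
          ∑ p ∈ P, (p : ℝ) ^ (-s)

/-- the hypotheses on `(ρ̄, Ψ)` of the frozen S47 -/
def IsOctahedralPair (ρ : Γℚ →* GL (Fin 2) (ZMod 3))
    (Ψ : GL (Fin 2) (ZMod 3) →* GL (Fin 2) (ℤ√(-2))) : Prop :=
  Continuous ρ ∧ Function.Surjective ρ ∧
    (∀ σ : Γℚ, Matrix.GeneralLinearGroup.det (ρ σ) = modThreeCyclotomicChar σ) ∧
    ∀ g, Matrix.GeneralLinearGroup.map red (Ψ g) = g

/-- A weight one eigenform (away from a finite set `S` of primes) of character `χ₋₃`, whose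
`a_p` are the traces of `Ψ (ρ̄ Frob_p)` for `p ∉ S`. -/
def HasAttachedForm (ρ : Γℚ →* GL (Fin 2) (ZMod 3))
    (Ψ : GL (Fin 2) (ZMod 3) →* GL (Fin 2) (ℤ√(-2))) : Prop :=
  ∃ (ι : ℤ√(-2) →+* ℂ) (N₀ : ℕ) (_ : NeZero N₀) (f₀ : CuspForm (Gamma1 N₀) 1) (S : Finset ℕ),
    ModularFormClass.qCoeff f₀ 1 = 1 ∧
    (∀ p : ℕ, p.Prime → p ∉ S → ∀ n : ℕ,
      ModularFormClass.qCoeff f₀ (p * n) +
          ((chiNegThree p : ℤ) : ℂ) *
            (if p ∣ n then ModularFormClass.qCoeff f₀ (n / p) else 0) =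
        ModularFormClass.qCoeff f₀ p * ModularFormClass.qCoeff f₀ n) ∧
    ∀ p : ℕ, p.Prime → p ∉ S →
      ∀ A : ValuationSubring (AlgebraicClosure ℚ), A.LiesOverPrime p →
        ∀ σ : Γℚ, A.IsFrobeniusAt σ p →
          ModularFormClass.qCoeff f₀ p =
            ι (((Ψ (ρ σ) : GL (Fin 2) (ℤ√(-2))) : Matrix (Fin 2) (Fin 2) (ℤ√(-2))).trace)

/-- **(ATT)** Every octahedral pair has an attached weight one form. -/
def StmtAttachedForm : Prop :=
  ∀ (ρ : Γℚ →* GL (Fin 2) (ZMod 3)) (Ψ : GL (Fin 2) (ZMod 3) →* GL (Fin 2) (ℤ√(-2))),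
    IsOctahedralPair ρ Ψ → HasAttachedForm ρ Ψ

/-- **(GLUE)** The Galois side of Langlands–Tunnell: from the automorphic box, Deligne–Serre
and Chebotarev to the attached form.  (Pieces GAL-1 … GAL-4 of `NOTES/LT-core.md`.) -/
def StmtGaloisGlue : Prop :=
  StmtAutomorphic → StmtDS → StmtChebD → StmtAttachedForm

/-- the conclusion of the frozen S47 for `(ρ̄, Ψ)` -/
def ConclS47 (ρ : Γℚ →* GL (Fin 2) (ZMod 3))
    (Ψ : GL (Fin 2) (ZMod 3) →* GL (Fin 2) (ℤ√(-2))) : Prop :=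
  ∃ (N : ℕ) (_ : NeZero N) (b : ℕ → ℤ√(-2)),
    FormalHecke.IsEigensystem
      (fun ℓ => if ℓ ∣ N then 0 else ((chiNegThree ℓ : ℤ) : ℤ√(-2))) b ∧
    CuspForm.IsWeightOneChiNegThreeRealized N b ∧
    ∀ p : ℕ, p.Prime → ¬ p ∣ 3 * N →
      ∀ A : ValuationSubring (AlgebraicClosure ℚ), A.LiesOverPrime p →
        ∀ σ : Γℚ, A.IsFrobeniusAt σ p →
          b p = ((Ψ (ρ σ) : GL (Fin 2) (ℤ√(-2))) : Matrix (Fin 2) (Fin 2) (ℤ√(-2))).trace

/-- the conclusion of `StmtCoreArtin` for `(ρ̄, Ψ)` (with the cube-free clause) -/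
def ConclCore (ρ : Γℚ →* GL (Fin 2) (ZMod 3))
    (Ψ : GL (Fin 2) (ZMod 3) →* GL (Fin 2) (ℤ√(-2))) : Prop :=
  ∃ (N : ℕ) (_ : NeZero N) (b : ℕ → ℤ√(-2)),
    FormalHecke.IsEigensystem
      (fun ℓ => if ℓ ∣ N then 0 else ((chiNegThree ℓ : ℤ) : ℤ√(-2))) b ∧
    CuspForm.IsWeightOneChiNegThreeRealized N b ∧
    (∀ q : ℕ, q.Prime → q ≠ 3 → ¬ q ^ 3 ∣ N) ∧
    ∀ p : ℕ, p.Prime → ¬ p ∣ 3 * N →
      ∀ A : ValuationSubring (AlgebraicClosure ℚ), A.LiesOverPrime p →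
        ∀ σ : Γℚ, A.IsFrobeniusAt σ p →
          b p = ((Ψ (ρ σ) : GL (Fin 2) (ℤ√(-2))) : Matrix (Fin 2) (Fin 2) (ℤ√(-2))).trace

/-- **(DEPL)** Depletion: the coprime-to-`M` part of a weight one cusp form on `Γ₁(N₀)` is a
cusp form on `Γ₁(N)` for some `N` divisible by `N₀` and `M`, with the same prime divisors as
`N₀ M`.  (Elementary: `f ↦ f ⊗ 1_M`.) -/
def StmtDeplete : Prop :=
  ∀ (N₀ : ℕ) [NeZero N₀] (f₀ : CuspForm (Gamma1 N₀) 1) (M : ℕ), 0 < M →
    ∃ (N : ℕ) (_ : NeZero N) (f : CuspForm (Gamma1 N) 1),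
      N₀ ∣ N ∧ M ∣ N ∧ (∀ q : ℕ, q.Prime → q ∣ N → q ∣ N₀ * M) ∧
      ∀ n : ℕ, ModularFormClass.qCoeff f n =
        if Nat.Coprime n N then ModularFormClass.qCoeff f₀ n else 0

/-- **(LEVEL)** For `ρ̄` of semistable type the attached form can be found in a level which
is cube-free away from `3` (level = Artin conductor; weight one newform theory). -/
def StmtLevel : Prop :=
  ∀ (ρ : Γℚ →* GL (Fin 2) (ZMod 3)) (Ψ : GL (Fin 2) (ZMod 3) →* GL (Fin 2) (ℤ√(-2))),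
    IsOctahedralPair ρ Ψ → SemistableInertia ρ → HasAttachedForm ρ Ψ → ConclCore ρ Ψ

/-! ## 4. Wiring -/

theorem attachedForm_of_glue (hG : StmtGaloisGlue) (hA : StmtAutomorphic) (hDS : StmtDS)
    (hC : StmtChebD) : StmtAttachedForm :=
  hG hA hDS hC

/-- `StmtCoreArtin` from (ATT) and (LEVEL). -/
theorem coreArtin_of_level (hA : StmtAttachedForm) (hL : StmtLevel) : StmtCoreArtin := by
  intro ρ hρ hsurj hdet hss Ψ hΨ
  exact hL ρ Ψ ⟨hρ, hsurj, hdet, hΨ⟩ hss (hA ρ Ψ ⟨hρ, hsurj, hdet, hΨ⟩)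

end Fermat.Agent.LT
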