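import Mathlib
import Fermat.Agent.LT.PlanCore
import Fermat.Agent.S48.Sigma

/-!
# Row 42, piece DEPL: depletion of a cusp form on `Γ₁(N₀)`

`stmtDeplete : StmtDeplete`: for `f₀ ∈ S_1(Γ₁(N₀))` and `M > 0` the series
`∑_{(n, N) = 1} a_n qⁿ` is a cusp form on `Γ₁(N)`, `N = N₀ m²`, `m = N₀ M`.

`f ⊗ 1_m = ∑_{k mod m} c_k f(z + k/m)` with `c_k = m⁻¹ ∑_{r ∈ (ℤ/m)ˣ} ψ(-r k)`, `ψ` the standard
additive character of `ℤ/m`.
-/

set_option autoImplicit false

open CongruenceSubgroup UpperHalfPlane ModularForm Filter Matrix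
open Fermat.Agent.S23 Fermat.Agent.S48
open scoped MatrixGroups Manifold

noncomputable section

namespace Fermat.Agent.LT

/-- the translate `z ↦ f (z + t)` -/
def depShift (f : ℍ → ℂ) (t : ℝ) : ℍ → ℂ := fun z => f (t +ᵥ z)

theorem depShift_apply (f : ℍ → ℂ) (t : ℝ) (z : ℍ) : depShift f t z = f (t +ᵥ z) := rfl

theorem dep_upperRight_smul (t : ℝ) (z : ℍ) :
    GeneralLinearGroup.upperRightHom t • z = t +ᵥ z := by
  ext
  simp [σ, num, denom, coe_vadd, UpperHalfPlane.coe_smul, add_comm]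

/-- the translate as a slash by the unipotent matrix -/
theorem depShift_eq_slash (f : ℍ → ℂ) (t : ℝ) (k : ℤ) :
    depShift f t = f ∣[k] (GeneralLinearGroup.upperRightHom t : GL (Fin 2) ℝ) := by
  funext z
  rw [slash_def]
  simp only []
  rw [dep_upperRight_smul]
  simp [depShift, σ, denom, GeneralLinearGroup.val_det_apply]

theorem depShift_mdiff {f : ℍ → ℂ} (hf : MDiff f) (t : ℝ) : MDiff (depShift f t) := by
  rw [depShift_eq_slash f t 0]
  exact hf.slash 0 _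

set_option backward.isDefEq.respectTransparency false in
/-- the image of a rational cusp under a rational matrix is a cusp of `SL₂(ℤ)` -/
theorem dep_isCusp_rat (g : GL (Fin 2) ℚ) (γ : SL(2, ℤ)) :
    IsCusp ((g.map (Rat.castHom ℝ) * Matrix.SpecialLinearGroup.mapGL ℝ γ) •
      (OnePoint.infty : OnePoint ℝ)) 𝒮ℒ := by
  rw [isCusp_SL2Z_iff]
  refine ⟨(g * Matrix.SpecialLinearGroup.mapGL ℚ γ) • (OnePoint.infty : OnePoint ℚ), ?_⟩
  rw [← Rat.coe_castHom, OnePoint.map_smul, OnePoint.map_infty, map_mul,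
    ← (Rat.castHom ℝ).algebraMap_toAlgebra, γ.map_mapGL]

theorem dep_upperRight_map (t : ℚ) :
    (GeneralLinearGroup.upperRightHom t : GL (Fin 2) ℚ).map (Rat.castHom ℝ) =
      GeneralLinearGroup.upperRightHom ((t : ℚ) : ℝ) := by
  ext i j
  fin_cases i <;> fin_cases j <;> simp [GeneralLinearGroup.upperRightHom]

/-- every `SL₂(ℤ)`-translate of a rational shift of a cusp form on `Γ₁(N)` vanishes at `i∞` -/
theorem depShift_slash_isZeroAtImInfty {N : ℕ} [NeZero N] {k : ℤ} (f : CuspForm (Gamma1 N) k)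
    (t : ℚ) (γ : SL(2, ℤ)) :
    IsZeroAtImInfty ((depShift (⇑f) ((t : ℚ) : ℝ)) ∣[k] γ) := by
  have hc := dep_isCusp_rat (GeneralLinearGroup.upperRightHom t) γ
  have hc' : IsCusp (((GeneralLinearGroup.upperRightHom t : GL (Fin 2) ℚ).map (Rat.castHom ℝ) *
      Matrix.SpecialLinearGroup.mapGL ℝ γ) • (OnePoint.infty : OnePoint ℝ))
      ((Gamma1 N : Subgroup SL(2, ℤ)) : Subgroup (GL (Fin 2) ℝ)) := by
    rw [Subgroup.IsArithmetic.isCusp_iff_isCusp_SL2Z]
    exact hc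
  have h := CuspFormClass.zero_at_cusps f hc' _ rfl
  rw [depShift_eq_slash (⇑f) _ k, ModularForm.SL_slash, ← SlashAction.slash_mul,
    ← dep_upperRight_map]
  exact h

/-- the conjugate of `γ ∈ Γ₁(N₀ m²)` by the shift `j/m` -/
def depConj (a b c d : ℤ) (h : a * d - b * c = 1) : SL(2, ℤ) :=
  ⟨!![a, b; c, d], by rw [Matrix.det_fin_two_of]; exact h⟩

theorem depConj_apply (a b c d : ℤ) (h : a * d - b * c = 1) :
    (depConj a b c d h) 0 0 = a ∧ (depConj a b c d h) 0 1 = b ∧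
      (depConj a b c d h) 1 0 = c ∧ (depConj a b c d h) 1 1 = d := by
  simp [depConj]

/-- the transformation law of the shift `f (z + j/m)` under `Γ₁(N₀ m²)` -/
theorem depShift_smul {N₀ m : ℕ} (hm : m ≠ 0) {k : ℤ} (f : CuspForm (Gamma1 N₀) k) (j : ℤ)
    {γ : SL(2, ℤ)} (hγ : γ ∈ Gamma1 (N₀ * m * m)) (z : ℍ) :
    depShift (⇑f) ((j : ℝ) / (m : ℝ)) (γ • z) =
      ((γ 1 0 : ℂ) * (z : ℂ) + (γ 1 1 : ℂ)) ^ k * depShift (⇑f) ((j : ℝ) / (m : ℝ)) z := by
  obtain ⟨ha, hd, hc⟩ := (Gamma1_mem _ γ).mp hγ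
  have hdet : (γ 0 0 * γ 1 1 - γ 0 1 * γ 1 0 : ℤ) = 1 := by
    have := γ.det_coe
    rw [Matrix.det_fin_two] at this
    exact this
  obtain ⟨c₀, hc₀⟩ : ((N₀ * m * m : ℕ) : ℤ) ∣ γ 1 0 :=
    (ZMod.intCast_zmod_eq_zero_iff_dvd _ _).mp hc
  obtain ⟨e₀, he₀⟩ : ((N₀ * m * m : ℕ) : ℤ) ∣ γ 1 1 - γ 0 0 := by
    apply (ZMod.intCast_zmod_eq_zero_iff_dvd _ _).mp
    rw [Int.cast_sub, ha, hd, sub_self]
  obtain ⟨a₀, ha₀⟩ : ((N₀ * m * m : ℕ) : ℤ) ∣ γ 0 0 - 1 := by
    apply (ZMod.intCast_zmod_eq_zero_iff_dvd _ _).mp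
    rw [Int.cast_sub, ha, Int.cast_one, sub_self]
  push_cast at hc₀ he₀ ha₀
  set a := γ 0 0 with hadef
  set b := γ 0 1 with hbdef
  set c := γ 1 0 with hcdef
  set d := γ 1 1 with hddef
  have hd' : d = a + (N₀ : ℤ) * m * m * e₀ := by linarith
  have hdet' : (a + j * (N₀ * m * c₀)) * (d - j * (N₀ * m * c₀)) -
      (b + j * (N₀ * m * e₀) - j ^ 2 * (N₀ * c₀)) * c = 1 := by
    rw [hd', hc₀]
    rw [hd', hc₀] at hdet
    linear_combination hdet
  set γ' := depConj _ _ _ _ hdet' with hγ'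
  obtain ⟨h00, h01, h10, h11⟩ := depConj_apply _ _ _ _ hdet'
  have hmem : γ' ∈ Gamma1 N₀ := by
    rw [Gamma1_mem]
    refine ⟨?_, ?_, ?_⟩
    · rw [h00]
      have : a + j * (N₀ * m * c₀) = 1 + (N₀ : ℤ) * (m * m * a₀ + j * m * c₀) := by
        linear_combination ha₀
      rw [this]
      simp
    · rw [h11]
      have : d - j * (N₀ * m * c₀) = 1 + (N₀ : ℤ) * (m * m * a₀ + m * m * e₀ - j * m * c₀) := by
        rw [hd']; linear_combination ha₀
      rw [this]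
      simp
    · rw [h10, hc₀]
      simp [mul_assoc]
  have hmR : (m : ℝ) ≠ 0 := by exact_mod_cast hm
  have hmC : (m : ℂ) ≠ 0 := by exact_mod_cast hm
  have hden : (c : ℂ) * (z : ℂ) + (d : ℂ) ≠ 0 := by
    have := denom_ne_zero γ z
    rwa [ModularGroup.denom_apply] at this
  have hcC : (c : ℂ) = (N₀ : ℂ) * m * m * c₀ := by exact_mod_cast congrArg (Int.cast : ℤ → ℂ) hc₀
  have hdC : (d : ℂ) = (a : ℂ) + (N₀ : ℂ) * m * m * e₀ := by
    exact_mod_cast congrArg (Int.cast : ℤ → ℂ) hd'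
  have hden2 : (c : ℂ) * ((j : ℂ) / (m : ℂ) + (z : ℂ)) + ((d : ℂ) - j * (N₀ * m * c₀)) =
      (c : ℂ) * (z : ℂ) + (d : ℂ) := by
    rw [hcC]
    field_simp
    ring
  have hpt : ((j : ℝ) / (m : ℝ)) +ᵥ (γ • z) = γ' • (((j : ℝ) / (m : ℝ)) +ᵥ z) := by
    ext
    rw [coe_vadd, coe_specialLinearGroup_apply, coe_specialLinearGroup_apply, coe_vadd]
    simp only [algebraMap_int_eq, eq_intCast]
    rw [h00, h01, h10, h11, ← hadef, ← hbdef, ← hcdef, ← hddef]
    push_cast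
    rw [hden2, eq_div_iff hden, add_mul, div_mul_cancel₀ _ hden, hdC, hcC]
    field_simp
    ring
  rw [depShift_apply, depShift_apply, hpt, sigma_G1_smul f hmem, h10, h11, coe_vadd]
  congr 2
  push_cast
  exact hden2

/-! ## The coefficients `c_k` and the orthogonality relation -/

/-- `c_k = m⁻¹ ∑_{r ∈ (ℤ/m)ˣ} ψ(-r k)` -/
def depCoeff (m : ℕ) [NeZero m] (k : ZMod m) : ℂ :=
  (m : ℂ)⁻¹ * ∑ r : (ZMod m)ˣ, ZMod.stdAddChar (-((r : ZMod m) * k))

/-- `∑_k c_k ψ(k)^n = 1` if `(n, m) = 1`, and `0` otherwise -/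
theorem depCoeff_sum (m : ℕ) [NeZero m] (n : ℕ) :
    ∑ k : ZMod m, depCoeff m k * (ZMod.stdAddChar k) ^ n =
      if Nat.Coprime n m then 1 else 0 := by
  classical
  have hm : (m : ℂ) ≠ 0 := by exact_mod_cast NeZero.ne m
  have h1 : ∀ k : ZMod m, depCoeff m k * (ZMod.stdAddChar k) ^ n =
      (m : ℂ)⁻¹ * ∑ r : (ZMod m)ˣ, ZMod.stdAddChar (k * ((n : ZMod m) - (r : ZMod m))) := by
    intro k
    unfold depCoeff
    rw [mul_assoc, Finset.sum_mul]
    congr 1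
    apply Finset.sum_congr rfl
    intro r _
    rw [← AddChar.map_nsmul_eq_pow, ← AddChar.map_add_eq_mul]
    congr 1
    rw [nsmul_eq_mul]
    ring
  simp_rw [h1]
  rw [← Finset.mul_sum, Finset.sum_comm]
  have h2 : ∀ r : (ZMod m)ˣ,
      ∑ k : ZMod m, ZMod.stdAddChar (N := m) (k * ((n : ZMod m) - (r : ZMod m))) =
        if (r : ZMod m) = (n : ZMod m) then (m : ℂ) else 0 := by
    intro r
    rw [AddChar.sum_mulShift _ (ZMod.isPrimitive_stdAddChar m), ZMod.card]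
    by_cases h : (r : ZMod m) = (n : ZMod m)
    · rw [if_pos h, if_pos (by rw [h, sub_self])]
    · rw [if_neg h, if_neg (fun h' => h (sub_eq_zero.mp h').symm), Nat.cast_zero]
  simp_rw [h2]
  by_cases hn : Nat.Coprime n m
  · rw [if_pos hn]
    have hu : IsUnit ((n : ℕ) : ZMod m) := (ZMod.isUnit_iff_coprime n m).mpr hn
    rw [Finset.sum_eq_single hu.unit]
    · rw [if_pos hu.unit_spec]
      field_simp
    · intro r _ hr
      rw [if_neg]
      intro h
      exact hr (Units.ext (by rw [h, hu.unit_spec]))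
    · intro h
      exact absurd (Finset.mem_univ _) h
  · rw [if_neg hn]
    rw [Finset.sum_eq_zero, mul_zero]
    intro r _
    rw [if_neg]
    intro h
    apply hn
    rw [← ZMod.isUnit_iff_coprime, ← h]
    exact r.isUnit

/-! ## The depleted function -/

/-- `∑_k c_k f(z + k/m)` -/
def depFun (f : ℍ → ℂ) (m : ℕ) [NeZero m] : ℍ → ℂ :=
  ∑ k : ZMod m, depCoeff m k • depShift f (((k.val : ℕ) : ℝ) / (m : ℝ))

theorem depFun_apply (f : ℍ → ℂ) (m : ℕ) [NeZero m] (z : ℍ) :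
    depFun f m z = ∑ k : ZMod m, depCoeff m k * depShift f (((k.val : ℕ) : ℝ) / (m : ℝ)) z := by
  simp [depFun, Finset.sum_apply]

theorem depFun_mdiff {f : ℍ → ℂ} (hf : MDiff f) (m : ℕ) [NeZero m] : MDiff (depFun f m) :=
  MDifferentiable.sum (fun _ _ => (depShift_mdiff hf _).const_smul _)

theorem depFun_smul {N₀ m : ℕ} [NeZero m] {k : ℤ} (f : CuspForm (Gamma1 N₀) k)
    {γ : SL(2, ℤ)} (hγ : γ ∈ Gamma1 (N₀ * m * m)) (z : ℍ) :
    depFun (⇑f) m (γ • z) =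
      ((γ 1 0 : ℂ) * (z : ℂ) + (γ 1 1 : ℂ)) ^ k * depFun (⇑f) m z := by
  rw [depFun_apply, depFun_apply, Finset.mul_sum]
  apply Finset.sum_congr rfl
  intro j _
  have h := depShift_smul (NeZero.ne m) f ((j.val : ℕ) : ℤ) hγ z
  rw [Int.cast_natCast] at h
  rw [h]
  ring

theorem dep_sum_slash_isZero {ι : Type*} (s : Finset ι) (c : ι → ℂ) (g : ι → ℍ → ℂ) (k : ℤ)
    (γ : SL(2, ℤ)) (h : ∀ i ∈ s, IsZeroAtImInfty (g i ∣[k] γ)) :
    IsZeroAtImInfty ((∑ i ∈ s, c i • g i) ∣[k] γ) := by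
  classical
  induction s using Finset.induction_on with
  | empty =>
    rw [Finset.sum_empty, SlashAction.zero_slash]
    exact zero_zeroAtFilter _
  | insert a s ha ih =>
    rw [Finset.sum_insert ha, SlashAction.add_slash, ModularForm.SL_smul_slash]
    exact ZeroAtFilter.add ((h a (Finset.mem_insert_self a s)).smul (c a))
      (ih (fun i hi => h i (Finset.mem_insert_of_mem hi)))

theorem depFun_slash_isZero {N₀ m : ℕ} [NeZero N₀] [NeZero m] {k : ℤ}
    (f : CuspForm (Gamma1 N₀) k) (γ : SL(2, ℤ)) :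
    IsZeroAtImInfty ((depFun (⇑f) m) ∣[k] γ) := by
  unfold depFun
  apply dep_sum_slash_isZero
  intro j _
  have h := depShift_slash_isZeroAtImInfty f (((j.val : ℕ) : ℚ) / (m : ℚ)) γ
  have e : (((((j.val : ℕ) : ℚ) / (m : ℚ) : ℚ)) : ℝ) = ((j.val : ℕ) : ℝ) / (m : ℝ) := by
    push_cast
    rfl
  rw [e] at h
  exact h

/-! ## The `q`-expansion -/

theorem dep_qParam_vadd (m : ℕ) [NeZero m] (k : ZMod m) (z : ℍ) :
    Function.Periodic.qParam 1 (((((k.val : ℕ) : ℝ) / (m : ℝ)) +ᵥ z : ℍ) : ℂ) =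
      ZMod.stdAddChar k * Function.Periodic.qParam 1 (z : ℂ) := by
  have h1 : ZMod.stdAddChar (N := m) k =
      Complex.exp (2 * Real.pi * Complex.I * ((k.val : ℕ) : ℤ) / m) := by
    rw [← ZMod.stdAddChar_coe]
    congr 1
    simp
  rw [h1, Function.Periodic.qParam, Function.Periodic.qParam, ← Complex.exp_add, coe_vadd]
  congr 1
  push_cast
  ring

theorem depFun_hasSum {f : ℍ → ℂ} (hf : IsHPB f) (m : ℕ) [NeZero m] (z : ℍ) :
    HasSum (fun n : ℕ => (if Nat.Coprime n m then (qExpansion 1 f).coeff n else 0) •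
      Function.Periodic.qParam 1 (z : ℂ) ^ n) (depFun f m z) := by
  rw [depFun_apply]
  have h1 : ∀ k : ZMod m, HasSum (fun n : ℕ => depCoeff m k * ((qExpansion 1 f).coeff n •
      Function.Periodic.qParam 1 (((((k.val : ℕ) : ℝ) / (m : ℝ)) +ᵥ z : ℍ) : ℂ) ^ n))
      (depCoeff m k * depShift f (((k.val : ℕ) : ℝ) / (m : ℝ)) z) := fun k =>
    (hasSum_qExpansion one_pos hf.2.1 hf.1 hf.2.2 _).mul_left _
  have h2 := hasSum_sum (s := Finset.univ) (fun k _ => h1 k)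
  convert h2 using 1
  funext n
  simp_rw [dep_qParam_vadd, mul_pow, smul_eq_mul]
  have key : (if Nat.Coprime n m then (qExpansion 1 f).coeff n else 0) =
      (∑ k : ZMod m, depCoeff m k * (ZMod.stdAddChar k) ^ n) * (qExpansion 1 f).coeff n := by
    rw [depCoeff_sum]
    split_ifs <;> simp
  rw [key, Finset.sum_mul, Finset.sum_mul]
  apply Finset.sum_congr rfl
  intro k _
  ring

/-- **(DEPL)** -/
theorem stmtDeplete : StmtDeplete := by
  intro N₀ hN₀ f₀ M hM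
  have : NeZero (N₀ * M) := ⟨Nat.mul_ne_zero (NeZero.ne N₀) hM.ne'⟩
  have : NeZero (N₀ * (N₀ * M) * (N₀ * M)) :=
    ⟨Nat.mul_ne_zero (Nat.mul_ne_zero (NeZero.ne N₀) (NeZero.ne _)) (NeZero.ne _)⟩
  obtain ⟨f, hf⟩ := sigma_exists_cuspForm_G1 (N := N₀ * (N₀ * M) * (N₀ * M)) 1
    (depFun (⇑f₀) (N₀ * M)) (depFun_mdiff (CuspFormClass.holo f₀) _)
    (fun γ hγ z => depFun_smul f₀ hγ z) (fun γ => depFun_slash_isZero f₀ γ)
  refine ⟨N₀ * (N₀ * M) * (N₀ * M), inferInstance, f, ?_, ?_, ?_, ?_⟩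
  · exact ⟨(N₀ * M) * (N₀ * M), by ring⟩
  · exact ⟨N₀ * N₀ * N₀ * M, by ring⟩
  · intro q hq hqN
    rcases (Nat.Prime.dvd_mul hq).mp hqN with h | h
    · rcases (Nat.Prime.dvd_mul hq).mp h with h | h
      · exact h.mul_right M
      · exact h
    · exact h
  · intro n
    have hcop : Nat.Coprime n (N₀ * (N₀ * M) * (N₀ * M)) ↔ Nat.Coprime n (N₀ * M) := by
      constructor
      · intro h
        exact Nat.Coprime.coprime_dvd_right (Dvd.intro_left _ rfl) h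
      · intro h
        have h0 : Nat.Coprime n N₀ := Nat.Coprime.coprime_dvd_right (Dvd.intro _ rfl) h
        exact Nat.Coprime.mul_right (Nat.Coprime.mul_right h0 h) h
    have hsum : ∀ z : ℍ, HasSum (fun n : ℕ =>
        (if Nat.Coprime n (N₀ * M) then (qExpansion 1 (⇑f₀)).coeff n else 0) •
          Function.Periodic.qParam 1 (z : ℂ) ^ n) (f z) := by
      intro z
      rw [hf]
      exact depFun_hasSum (sigma_isHPB f₀) (N₀ * M) z
    have := ModularFormClass.qExpansion_coeff_unique (f := f)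
      (c := fun n : ℕ => if Nat.Coprime n (N₀ * M) then (qExpansion 1 (⇑f₀)).coeff n else 0)
      one_pos (eisOdd_one_mem_strictPeriods _) hsum n
    unfold ModularFormClass.qCoeff
    rw [← this]
    by_cases h : Nat.Coprime n (N₀ * M)
    · rw [if_pos h, if_pos (hcop.mpr h)]
    · rw [if_neg h, if_neg (fun h' => h (hcop.mp h'))]

end Fermat.Agent.LT
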