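import Fermat.Agent.LT.Plan
import Fermat.Agent.S23

/-!
# Row 42, piece (G5): `HasIntegralBasis N` for every level, from S23
-/

set_option autoImplicit false

namespace Fermat.Agent.LT

/-- the two descriptions of the set of forms with integral `q`-expansion -/
theorem intBasis_set_eq (N : ℕ) :
    {f : CuspForm (CongruenceSubgroup.Gamma0 N) 2 |
      ∀ n : ℕ, ∃ m : ℤ, ModularFormClass.qCoeff f n = (m : ℂ)} = CuspForm.qIntegralSet N := by
  ext f
  simp only [CuspForm.qIntegralSet, Set.mem_ofPred_eq, Subring.mem_bot]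
  constructor
  · intro hf n
    obtain ⟨m, hm⟩ := hf n
    exact ⟨m, by rw [hm]⟩
  · intro hf n
    obtain ⟨m, hm⟩ := hf n
    exact ⟨m, by rw [← hm]⟩

/-- **(G5)** -/
theorem stmtIntBasis : StmtIntBasis := by
  intro N hN
  have h := Fermat.Agent.S23.result N
  unfold CuspForm.HasIntegralStructure at h
  unfold CuspForm.HasIntegralBasis
  rw [← intBasis_set_eq]
  rw [eq_top_iff] at h ⊢
  refine h.trans ?_
  rw [Submodule.span_le]
  intro f hf
  have hf' : f ∈ Submodule.span ℤ {f : CuspForm (CongruenceSubgroup.Gamma0 N) 2 |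
      ∀ n : ℕ, ∃ m : ℤ, ModularFormClass.qCoeff f n = (m : ℂ)} := hf
  refine Submodule.span_induction (p := fun x _ => x ∈ Submodule.span ℂ
    {f : CuspForm (CongruenceSubgroup.Gamma0 N) 2 |
      ∀ n : ℕ, ∃ m : ℤ, ModularFormClass.qCoeff f n = (m : ℂ)}) ?_ ?_ ?_ ?_ hf'
  · intro x hx
    exact Submodule.subset_span hx
  · exact Submodule.zero_mem _
  · intro x y _ _ hx hy
    exact Submodule.add_mem _ hx hy
  · intro a x _ hx
    have : a • x = (a : ℂ) • x := by
      rw [Int.cast_smul_eq_zsmul]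
    rw [this]
    exact Submodule.smul_mem _ _ hx

end Fermat.Agent.LT
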