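import Mathlib
import Fermat.Agent.LT.PlanCore
import Fermat.Agent.Common.FrobExists

/-!
# Row 42: the frozen statement S47 from (ATT) and (DEPL)

`s47_of_attached_deplete : StmtAttachedForm → StmtDeplete → (frozen S47, verbatim)`.
Elementary: deplete the attached form at the primes of `3 · S`, and read off the
`ℤ[√−2]`-valued eigensystem from the Hecke recursion.
-/

set_option autoImplicit false

open IsDedekindDomain NumberField AutomorphicForm CongruenceSubgroup
open EisensteinWeightOne FLT.ExplicitLift WeierstrassCurve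
open scoped MatrixGroups

namespace Fermat.Agent.LT

local notation "Γℚ" => (AlgebraicClosure ℚ ≃ₐ[ℚ] AlgebraicClosure ℚ)

/-- a ring homomorphism `ℤ[√−2] → ℂ` is injective -/
theorem zsqrtd_hom_injective (ι : ℤ√(-2) →+* ℂ) : Function.Injective ι := by
  rw [injective_iff_map_eq_zero]
  intro x hx
  have h1 : ι (x * star x) = 0 := by rw [map_mul, hx, zero_mul]
  have h2 : x * star x = ((x.norm : ℤ) : ℤ√(-2)) := by
    rw [Zsqrtd.norm_eq_mul_conj]
  rw [h2, map_intCast] at h1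
  have h3 : x.norm = 0 := by exact_mod_cast h1
  exact (Zsqrtd.norm_eq_zero_iff (by norm_num) x).mp h3

/-- the level multiplier: `3` times the product of the nonzero elements of `S` -/
def depleteModulus (S : Finset ℕ) : ℕ := 3 * ∏ p ∈ S, (if p = 0 then 1 else p)

theorem depleteModulus_pos (S : Finset ℕ) : 0 < depleteModulus S := by
  unfold depleteModulus
  apply Nat.mul_pos (by norm_num)
  apply Finset.prod_pos
  intro p _
  split_ifs with h
  · norm_num
  · exact Nat.pos_of_ne_zero h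

theorem three_dvd_depleteModulus (S : Finset ℕ) : 3 ∣ depleteModulus S :=
  Dvd.intro _ rfl

theorem dvd_depleteModulus {S : Finset ℕ} {p : ℕ} (hp : p ∈ S) (h0 : p ≠ 0) :
    p ∣ depleteModulus S := by
  unfold depleteModulus
  apply Dvd.dvd.mul_left
  have := Finset.dvd_prod_of_mem (fun p => if p = 0 then 1 else p) hp
  simpa [h0] using this

/-- the character with the primes of `N` removed -/
def depletedChar (N : ℕ) (ℓ : ℕ) : ℤ√(-2) :=
  if ℓ ∣ N then 0 else ((chiNegThree ℓ : ℤ) : ℤ√(-2))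

/-- The Hecke relations of the depleted coefficients (in `ℂ`). -/
theorem depleted_rel (ι : ℤ√(-2) →+* ℂ) (N : ℕ) (c a : ℕ → ℂ)
    (hc : ∀ n, c n = if Nat.Coprime n N then a n else 0)
    (hrel : ∀ p : ℕ, p.Prime → ¬ p ∣ N → ∀ n : ℕ,
      a (p * n) + ((chiNegThree p : ℤ) : ℂ) * (if p ∣ n then a (n / p) else 0) = a p * a n)
    (ℓ : ℕ) (hℓ : ℓ.Prime) (n : ℕ) :
    c (ℓ * n) + ι (depletedChar N ℓ) * (if ℓ ∣ n then c (n / ℓ) else 0) = c ℓ * c n := by
  by_cases hN : ℓ ∣ N
  · have h1 : ¬ Nat.Coprime (ℓ * n) N := by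
      intro h
      have : ℓ ∣ Nat.gcd (ℓ * n) N := Nat.dvd_gcd (Dvd.intro _ rfl) hN
      rw [h] at this
      exact hℓ.one_lt.ne' (Nat.dvd_one.mp this)
    have h2 : ¬ Nat.Coprime ℓ N := by
      intro h
      have : ℓ ∣ Nat.gcd ℓ N := Nat.dvd_gcd dvd_rfl hN
      rw [h] at this
      exact hℓ.one_lt.ne' (Nat.dvd_one.mp this)
    rw [hc (ℓ * n), hc ℓ, if_neg h1, if_neg h2]
    simp [depletedChar, hN]
  · have hcop : Nat.Coprime ℓ N := (Nat.Prime.coprime_iff_not_dvd hℓ).mpr hN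
    have hchar : ι (depletedChar N ℓ) = ((chiNegThree ℓ : ℤ) : ℂ) := by
      simp [depletedChar, hN]
    rw [hchar]
    by_cases hn : Nat.Coprime n N
    · have h1 : Nat.Coprime (ℓ * n) N := Nat.Coprime.mul_left hcop hn
      rw [hc (ℓ * n), hc ℓ, hc n, if_pos h1, if_pos hcop, if_pos hn]
      by_cases hd : ℓ ∣ n
      · have h2 : Nat.Coprime (n / ℓ) N :=
          Nat.Coprime.coprime_dvd_left (Nat.div_dvd_of_dvd hd) hn
        rw [if_pos hd, hc (n / ℓ), if_pos h2]
        have := hrel ℓ hℓ hN n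
        rw [if_pos hd] at this
        exact this
      · rw [if_neg hd]
        have := hrel ℓ hℓ hN n
        rw [if_neg hd] at this
        exact this
    · have h1 : ¬ Nat.Coprime (ℓ * n) N := fun h =>
        hn (Nat.Coprime.coprime_dvd_left (Dvd.intro_left _ rfl) h)
      rw [hc (ℓ * n), hc n, if_neg h1, if_neg hn]
      by_cases hd : ℓ ∣ n
      · have h2 : ¬ Nat.Coprime (n / ℓ) N := by
          intro h
          apply hn
          have := Nat.Coprime.mul_left hcop h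
          rwa [Nat.mul_div_cancel' hd] at this
        rw [if_pos hd, hc (n / ℓ), if_neg h2]
        simp
      · rw [if_neg hd]
        simp

/-- The depleted coefficients lie in the image of `ℤ[√−2]`. -/
theorem depleted_range (ι : ℤ√(-2) →+* ℂ) (N : ℕ) (c : ℕ → ℂ)
    (hc0 : c 0 = 0) (hc1 : c 1 = 1)
    (hrel : ∀ ℓ : ℕ, ℓ.Prime → ∀ n : ℕ,
      c (ℓ * n) + ι (depletedChar N ℓ) * (if ℓ ∣ n then c (n / ℓ) else 0) = c ℓ * c n)
    (hprime : ∀ p : ℕ, p.Prime → c p ∈ Set.range ι) :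
    ∀ n : ℕ, c n ∈ Set.range ι := by
  intro n
  induction n using Nat.strong_induction_on with
  | _ n ih =>
    rcases Nat.lt_or_ge n 2 with h | h
    · interval_cases n
      · exact ⟨0, by rw [map_zero, hc0]⟩
      · exact ⟨1, by rw [map_one, hc1]⟩
    · have hn1 : n ≠ 1 := by omega
      have hℓ : (Nat.minFac n).Prime := Nat.minFac_prime hn1
      obtain ⟨m, hm⟩ := Nat.minFac_dvd n
      have hℓ2 : 2 ≤ Nat.minFac n := hℓ.two_le
      have hm0 : 0 < m := by
        rcases Nat.eq_zero_or_pos m with h0 | h0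
        · rw [h0, mul_zero] at hm; omega
        · exact h0
      have hmn : m < n := by
        rw [hm]; nlinarith
      obtain ⟨x, hx⟩ := hprime _ hℓ
      obtain ⟨y, hy⟩ := ih m hmn
      have hdiv : m / Nat.minFac n < n := lt_of_le_of_lt (Nat.div_le_self _ _) hmn
      obtain ⟨z, hz⟩ := ih _ hdiv
      have := hrel _ hℓ m
      rw [← hm] at this
      refine ⟨x * y - depletedChar N (Nat.minFac n) * (if Nat.minFac n ∣ m then z else 0), ?_⟩
      rw [map_sub, map_mul, map_mul, hx, hy, ← this]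
      split_ifs
      · rw [hz]; ring
      · rw [map_zero]; ring

/-- **(ATT) + (DEPL) ⇒ the conclusion of S47**, for one pair `(ρ̄, Ψ)`. -/
theorem conclS47_of_attached (hD : StmtDeplete) (ρ : Γℚ →* GL (Fin 2) (ZMod 3))
    (Ψ : GL (Fin 2) (ZMod 3) →* GL (Fin 2) (ℤ√(-2))) (h : HasAttachedForm ρ Ψ) :
    ConclS47 ρ Ψ := by
  obtain ⟨ι, N₀, hN₀, f₀, S, h1, hrel, hfrob⟩ := h
  have hinj := zsqrtd_hom_injective ι
  obtain ⟨N, hN, f, -, hMN, -, hf⟩ := hD N₀ f₀ (depleteModulus S) (depleteModulus_pos S)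
  have h3N : 3 ∣ N := (three_dvd_depleteModulus S).trans hMN
  have hN1 : N ≠ 1 := by
    rintro rfl
    exact absurd (Nat.dvd_one.mp h3N) (by norm_num)
  have hS : ∀ p : ℕ, p.Prime → ¬ p ∣ N → p ∉ S := fun p hp hpN hpS =>
    hpN ((dvd_depleteModulus hpS hp.ne_zero).trans hMN)
  -- the relations of the depleted coefficients
  have hrel' := depleted_rel ι N (fun n => ModularFormClass.qCoeff f n)
    (fun n => ModularFormClass.qCoeff f₀ n) hf
    (fun p hp hpN n => hrel p hp (hS p hp hpN) n)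
  have hc0 : ModularFormClass.qCoeff f 0 = 0 := by
    rw [hf 0, if_neg]
    rw [Nat.coprime_zero_left]
    exact hN1
  have hc1 : ModularFormClass.qCoeff f 1 = 1 := by
    rw [hf 1, if_pos (Nat.coprime_one_left N), h1]
  have hprime : ∀ p : ℕ, p.Prime → ModularFormClass.qCoeff f p ∈ Set.range ι := by
    intro p hp
    by_cases hpN : p ∣ N
    · refine ⟨0, ?_⟩
      rw [map_zero, hf p, if_neg]
      intro hcop
      have : p ∣ Nat.gcd p N := Nat.dvd_gcd dvd_rfl hpN
      rw [hcop] at this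
      exact hp.one_lt.ne' (Nat.dvd_one.mp this)
    · obtain ⟨A, σ, hA, hσ⟩ := Fermat.Agent.Common.exists_isFrobeniusAt p hp
      refine ⟨((Ψ (ρ σ) : GL (Fin 2) (ℤ√(-2))) : Matrix (Fin 2) (Fin 2) (ℤ√(-2))).trace, ?_⟩
      rw [hf p, if_pos ((Nat.Prime.coprime_iff_not_dvd hp).mpr hpN)]
      exact (hfrob p hp (hS p hp hpN) A hA σ hσ).symm
  have hrange := depleted_range ι N (fun n => ModularFormClass.qCoeff f n) hc0 hc1 hrel' hprime
  choose b hb using hrange
  refine ⟨N, hN, b, ⟨?_, ?_⟩, ⟨ι, f, fun n => (hb n).symm⟩, ?_⟩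
  · apply hinj
    rw [hb 1, map_one]
    exact hc1
  · intro ℓ hℓ n
    apply hinj
    have := hrel' ℓ hℓ n
    rw [map_add, map_mul, map_mul, hb, hb, hb, ← this]
    congr 2
    split_ifs
    · rw [hb]
    · rw [map_zero]
  · intro p hp hp3N A hA σ hσ
    apply hinj
    have hpN : ¬ p ∣ N := fun h => hp3N (Dvd.dvd.mul_left h 3)
    rw [hb p, hf p, if_pos ((Nat.Prime.coprime_iff_not_dvd hp).mpr hpN)]
    exact hfrob p hp (hS p hp hpN) A hA σ hσ

/-- **Wiring**: the frozen statement S47 (verbatim) from (ATT) and (DEPL). -/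
theorem s47_of_attached_deplete (hA : StmtAttachedForm) (hD : StmtDeplete)
    (ρ : Γℚ →* GL (Fin 2) (ZMod 3)) (hρ : Continuous ρ) (hsurj : Function.Surjective ρ)
    (hdet : ∀ σ : Γℚ, Matrix.GeneralLinearGroup.det (ρ σ) = modThreeCyclotomicChar σ)
    (Ψ : GL (Fin 2) (ZMod 3) →* GL (Fin 2) (ℤ√(-2)))
    (hΨ : ∀ g, Matrix.GeneralLinearGroup.map red (Ψ g) = g) :
    ∃ (N : ℕ) (_ : NeZero N) (b : ℕ → ℤ√(-2)),
      FormalHecke.IsEigensystem
        (fun ℓ => if ℓ ∣ N then 0 else ((chiNegThree ℓ : ℤ) : ℤ√(-2))) b ∧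
      CuspForm.IsWeightOneChiNegThreeRealized N b ∧
      ∀ p : ℕ, p.Prime → ¬ p ∣ 3 * N →
        ∀ A : ValuationSubring (AlgebraicClosure ℚ), A.LiesOverPrime p →
          ∀ σ : Γℚ, A.IsFrobeniusAt σ p →
            b p = ((Ψ (ρ σ) : GL (Fin 2) (ℤ√(-2))) : Matrix (Fin 2) (Fin 2) (ℤ√(-2))).trace :=
  conclS47_of_attached hD ρ Ψ (hA ρ Ψ ⟨hρ, hsurj, hdet, hΨ⟩)

end Fermat.Agent.LT
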