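import Mathlib
import Fermat.Agent.LT.S47Wiring
import Fermat.Agent.LT.Deplete

/-!
# Row 42: the frozen statement S47 from (ATT) alone

`s47_of_attached : StmtAttachedForm → (frozen S47, verbatim)`; (DEPL) is proved in
`LT/Deplete.lean`.
-/

set_option autoImplicit false

open EisensteinWeightOne FLT.ExplicitLift WeierstrassCurve
open scoped MatrixGroups

namespace Fermat.Agent.LT

local notation "Γℚ" => (AlgebraicClosure ℚ ≃ₐ[ℚ] AlgebraicClosure ℚ)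

/-- **S47 ⇐ (ATT)**. -/
theorem s47_of_attached (hA : StmtAttachedForm)
    (ρ : Γℚ →* GL (Fin 2) (ZMod 3)) (hρ : Continuous ρ) (hsurj : Function.Surjective ρ)
    (hdet : ∀ σ : Γℚ, Matrix.GeneralLinearGroup.det (ρ σ) = modThreeCyclotomicChar σ)
    (Ψ : GL (Fin 2) (ZMod 3) →* GL (Fin 2) (ℤ√(-2)))
    (hΨ : ∀ g, Matrix.GeneralLinearGroup.map red (Ψ g) = g) :
    ∃ (N : ℕ) (_ : NeZero N) (b : ℕ → ℤ√(-2)),
      FormalHecke.IsEigensystem
        (fun ℓ => if ℓ ∣ N then 0 else ((chiNegThree ℓ : ℤ) : ℤ√(-2))) b ∧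
      CuspForm.IsWeightOneChiNegThreeRealized N b ∧
      ∀ p : ℕ, p.Prime → ¬ p ∣ 3 * N →
        ∀ A : ValuationSubring (AlgebraicClosure ℚ), A.LiesOverPrime p →
          ∀ σ : Γℚ, A.IsFrobeniusAt σ p →
            b p = ((Ψ (ρ σ) : GL (Fin 2) (ℤ√(-2))) : Matrix (Fin 2) (Fin 2) (ℤ√(-2))).trace :=
  s47_of_attached_deplete hA stmtDeplete ρ hρ hsurj hdet Ψ hΨ

end Fermat.Agent.LT
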